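import Mathlib

/-!
# Row LT, towers T4 / T5, pre-leaf UNFOLD (helper29, squad S29/S29) -- OFF-MAIN, Mathlib only

Abstract core of the passage "kernel on the diagonal = sum over (twisted) conjugacy classes of
orbital integrals" (`T5.06 TwUnfold`, and its instance `σ = id` in T4).

Frame: a countable group `Γ` acts on a measure space `(α, μ)` by measure preserving maps and on a
set `Δ`; `Φ : Δ → α → E` is invariant under the diagonal action,
`Φ (γ • δ) (γ • x) = Φ δ x`.  (Trace formula: `α = GL₂(𝔸)` or a slice of it, `Γ = GL₂(K)` acting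
by left translation, `Δ = GL₂(K)` with `γ • δ = γ δ γ⁻¹`, resp. `γ δ σ(γ)⁻¹` in the twisted case,
and `Φ δ x = φ (x⁻¹ δ x)`, resp. `φ (x⁻¹ δ σ(x))`.)

* `isFundamentalDomain_subgroup29`: if `D` is a fundamental domain for `Γ` and `S ≤ Γ`, then
  `⋃ q : Γ ⧸ S, q.out⁻¹ • D` is a fundamental domain for `S`.
* `lintegral_orbit_unfold29`: for `f ≥ 0`,
  `∑' δ : orbit Γ δ₀, ∫⁻ x in D, f δ x = ∫⁻ x in F, f δ₀ x` for EVERY fundamental domain `F` of
  the stabiliser of `δ₀`.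
* `hasSum_integral_orbit_unfold29`: the same for Bochner integrals, under integrability of
  `Φ δ₀` on `F`.
* `integral_tsum_unfold29`: `∫ x in D, ∑' δ, Φ δ x = ∑' ω, ∫ x in F ω, Φ (rep ω) x`, the sum
  over the orbits `ω` of `Γ` in `Δ` (absolute convergence on `D` assumed).
-/

set_option autoImplicit false

open MeasureTheory Set Function
open scoped ENNReal Pointwise

noncomputable section

namespace Fermat.Agent.LT.H29

variable {Γ α Δ : Type*} [Group Γ] [MulAction Γ α] [MeasurableSpace α] [MulAction Γ Δ]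
  {μ : Measure α}

/-- The representative `q.out⁻¹` of the right coset `S q.out⁻¹`. -/
theorem out_inv_injective29 (S : Subgroup Γ) :
    Function.Injective fun q : Γ ⧸ S => (q.out : Γ)⁻¹ := by
  intro q q' h
  have h' : (q.out : Γ) = q'.out := inv_injective h
  calc q = ((q.out : Γ) : Γ ⧸ S) := (QuotientGroup.out_eq' q).symm
    _ = ((q'.out : Γ) : Γ ⧸ S) := by rw [h']
    _ = q' := QuotientGroup.out_eq' q'

/-- `Γ ⧸ S` is countable. -/
theorem countable_quotient29 [Countable Γ] (S : Subgroup Γ) : Countable (Γ ⧸ S) :=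
  (QuotientGroup.mk_surjective (s := S)).countable

/-- The translates `q.out⁻¹ • D` are pairwise a.e. disjoint. -/
theorem pairwise_aedisjoint_out_inv29 (S : Subgroup Γ) {D : Set α}
    (hD : IsFundamentalDomain Γ D μ) :
    Pairwise (AEDisjoint μ on fun q : Γ ⧸ S => (q.out : Γ)⁻¹ • D) := by
  intro q q' hqq'
  exact hD.aedisjoint fun h => hqq' (out_inv_injective29 S h)

variable [Countable Γ] [MeasurableConstSMul Γ α] [SMulInvariantMeasure Γ α μ]

/-- **Fundamental domain of a subgroup from coset representatives.** -/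
theorem isFundamentalDomain_subgroup29 (S : Subgroup Γ) {D : Set α}
    (hD : IsFundamentalDomain Γ D μ) :
    IsFundamentalDomain S (⋃ q : Γ ⧸ S, (q.out : Γ)⁻¹ • D) μ := by
  have : Countable (Γ ⧸ S) := countable_quotient29 S
  refine IsFundamentalDomain.mk'' ?_ ?_ ?_ ?_
  · exact NullMeasurableSet.iUnion fun q => hD.nullMeasurableSet_smul _
  · filter_upwards [hD.ae_covers] with x hx
    obtain ⟨γ, hγ⟩ := hx
    set q : Γ ⧸ S := (γ : Γ ⧸ S) with hq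
    have hmem : (q.out : Γ)⁻¹ * γ ∈ S := by
      rw [← QuotientGroup.eq, QuotientGroup.out_eq']
    refine ⟨⟨(q.out : Γ)⁻¹ * γ, hmem⟩, ?_⟩
    refine mem_iUnion.2 ⟨q, ?_⟩
    rw [mem_smul_set_iff_inv_smul_mem, inv_inv]
    show (q.out : Γ) • (((q.out : Γ)⁻¹ * γ) • x) ∈ D
    rw [smul_smul, mul_inv_cancel_left]
    exact hγ
  · intro s hs
    have hsΓ : (s : Γ) ≠ 1 := fun h => hs (Subtype.ext h)
    have hsm : (s • ⋃ q : Γ ⧸ S, (q.out : Γ)⁻¹ • D : Set α)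
        = ⋃ q : Γ ⧸ S, ((s : Γ) * (q.out : Γ)⁻¹) • D := by
      rw [smul_set_iUnion]
      refine iUnion_congr fun q => ?_
      show (s : Γ) • ((q.out : Γ)⁻¹ • D) = _
      rw [smul_smul]
    rw [hsm]
    refine (AEDisjoint.iUnion_left_iff).2 fun q => (AEDisjoint.iUnion_right_iff).2 fun q' => ?_
    refine hD.aedisjoint fun h => hsΓ ?_
    -- `s * q.out⁻¹ = q'.out⁻¹`
    have h1 : (q'.out : Γ) = (q.out : Γ) * (s : Γ)⁻¹ := by
      have := congrArg (fun g : Γ => g⁻¹) h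
      simpa [mul_inv_rev] using this.symm
    have hq : q' = q := by
      calc q' = ((q'.out : Γ) : Γ ⧸ S) := (QuotientGroup.out_eq' q').symm
        _ = (((q.out : Γ) * (s : Γ)⁻¹ : Γ) : Γ ⧸ S) := by rw [h1]
        _ = ((q.out : Γ) : Γ ⧸ S) := by
          rw [QuotientGroup.eq]
          simp only [mul_inv_rev, inv_inv, mul_assoc, inv_mul_cancel, mul_one]
          exact s.2
        _ = q := QuotientGroup.out_eq' q
    subst hq
    have : (q'.out : Γ) = (q'.out : Γ) * (s : Γ)⁻¹ := h1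
    have h2 : (s : Γ)⁻¹ = 1 := by
      have := mul_left_cancel (a := (q'.out : Γ)) (b := (1 : Γ)) (c := (s : Γ)⁻¹)
        (by rw [mul_one]; exact this)
      exact this.symm
    exact inv_eq_one.1 h2
  · intro s
    exact (measurePreserving_smul s μ).quasiMeasurePreserving

/-- Invariance of `f δ₀` under the stabiliser of `δ₀`. -/
theorem stabilizer_invariant29 {β : Type*} (f : Δ → α → β)
    (hf : ∀ (γ : Γ) (δ : Δ) (x : α), f (γ • δ) (γ • x) = f δ x) (δ₀ : Δ)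
    (s : MulAction.stabilizer Γ δ₀) (x : α) : f δ₀ (s • x) = f δ₀ x := by
  have h := hf (s : Γ) δ₀ x
  rw [MulAction.mem_stabilizer_iff.1 s.2] at h
  exact h

/-- Transport of the invariance: `f (γ • δ) x = f δ (γ⁻¹ • x)`. -/
theorem smul_left_eq29 {β : Type*} (f : Δ → α → β)
    (hf : ∀ (γ : Γ) (δ : Δ) (x : α), f (γ • δ) (γ • x) = f δ x) (γ : Γ) (δ : Δ) (x : α) :
    f (γ • δ) x = f δ (γ⁻¹ • x) := by
  have h := hf γ δ (γ⁻¹ • x)
  rwa [smul_inv_smul] at h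

/-- **Orbit unfolding, `lintegral` form.**  No integrability hypothesis. -/
theorem lintegral_orbit_unfold29 {D : Set α} (hD : IsFundamentalDomain Γ D μ)
    (f : Δ → α → ℝ≥0∞) (hf : ∀ (γ : Γ) (δ : Δ) (x : α), f (γ • δ) (γ • x) = f δ x)
    (δ₀ : Δ) {F : Set α} (hF : IsFundamentalDomain (MulAction.stabilizer Γ δ₀) F μ) :
    ∑' δ : MulAction.orbit Γ δ₀, ∫⁻ x in D, f δ x ∂μ = ∫⁻ x in F, f δ₀ x ∂μ := by
  set S := MulAction.stabilizer Γ δ₀ with hS
  have : Countable (Γ ⧸ S) := countable_quotient29 S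
  have hD' := isFundamentalDomain_subgroup29 (μ := μ) S hD
  calc ∑' δ : MulAction.orbit Γ δ₀, ∫⁻ x in D, f δ x ∂μ
      = ∑' q : Γ ⧸ S, ∫⁻ x in D, f (((MulAction.orbitEquivQuotientStabilizer Γ δ₀).symm q :
          MulAction.orbit Γ δ₀) : Δ) x ∂μ :=
        ((MulAction.orbitEquivQuotientStabilizer Γ δ₀).symm.tsum_eq
          (fun δ : MulAction.orbit Γ δ₀ => ∫⁻ x in D, f δ x ∂μ)).symm
    _ = ∑' q : Γ ⧸ S, ∫⁻ x in (q.out : Γ)⁻¹ • D, f δ₀ x ∂μ := by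
        refine tsum_congr fun q => ?_
        have hq : (((MulAction.orbitEquivQuotientStabilizer Γ δ₀).symm q :
            MulAction.orbit Γ δ₀) : Δ) = (q.out : Γ) • δ₀ := by
          conv_lhs => rw [← QuotientGroup.out_eq' q]
          exact MulAction.orbitEquivQuotientStabilizer_symm_apply Γ δ₀ _
        rw [hq]
        simp only [smul_left_eq29 f hf]
        exact (measurePreserving_smul (q.out : Γ)⁻¹ μ).setLIntegral_comp_emb
          (measurableEmbedding_const_smul _) _ _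
    _ = ∫⁻ x in ⋃ q : Γ ⧸ S, (q.out : Γ)⁻¹ • D, f δ₀ x ∂μ :=
        (lintegral_iUnion₀ (fun q => hD.nullMeasurableSet_smul _)
          (pairwise_aedisjoint_out_inv29 S hD) _).symm
    _ = ∫⁻ x in F, f δ₀ x ∂μ :=
        hD'.setLIntegral_eq hF _ (stabilizer_invariant29 f hf δ₀)

/-! ## Bochner form -/

variable {E : Type*} [NormedAddCommGroup E]

/-- Measurability on a translate of `D`. -/
theorem aestronglyMeasurable_smul_iff29 (f : Δ → α → E)
    (hf : ∀ (γ : Γ) (δ : Δ) (x : α), f (γ • δ) (γ • x) = f δ x) (γ : Γ) (δ : Δ) (D : Set α) :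
    AEStronglyMeasurable (f δ) (μ.restrict (γ⁻¹ • D)) ↔
      AEStronglyMeasurable (f (γ • δ)) (μ.restrict D) := by
  have he : MeasurableEmbedding (γ⁻¹ • · : α → α) := measurableEmbedding_const_smul _
  rw [← image_smul, ← ((measurePreserving_smul γ⁻¹ μ).restrict_image_emb he
    _).aestronglyMeasurable_comp_iff he]
  have : (f δ ∘ fun x => γ⁻¹ • x) = f (γ • δ) := by
    funext x
    exact (smul_left_eq29 f hf γ δ x).symm
  rw [this]

/-- Measurability on the fundamental domain of the stabiliser built from `D`. -/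
theorem aestronglyMeasurable_iUnion29 {D : Set α} (f : Δ → α → E)
    (hf : ∀ (γ : Γ) (δ : Δ) (x : α), f (γ • δ) (γ • x) = f δ x) (δ₀ : Δ)
    (hmeas : ∀ δ : MulAction.orbit Γ δ₀, AEStronglyMeasurable (f δ) (μ.restrict D)) :
    AEStronglyMeasurable (f δ₀)
      (μ.restrict (⋃ q : Γ ⧸ MulAction.stabilizer Γ δ₀, (q.out : Γ)⁻¹ • D)) := by
  have : Countable (Γ ⧸ MulAction.stabilizer Γ δ₀) := countable_quotient29 _
  refine AEStronglyMeasurable.iUnion fun q => ?_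
  rw [aestronglyMeasurable_smul_iff29 f hf]
  exact hmeas ⟨(q.out : Γ) • δ₀, MulAction.mem_orbit _ _⟩

/-- Measurability on every fundamental domain of the stabiliser. -/
theorem aestronglyMeasurable_stabilizer29 {D : Set α} (hD : IsFundamentalDomain Γ D μ)
    (f : Δ → α → E) (hf : ∀ (γ : Γ) (δ : Δ) (x : α), f (γ • δ) (γ • x) = f δ x) (δ₀ : Δ)
    {F : Set α} (hF : IsFundamentalDomain (MulAction.stabilizer Γ δ₀) F μ)
    (hmeas : ∀ δ : MulAction.orbit Γ δ₀, AEStronglyMeasurable (f δ) (μ.restrict D)) :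
    AEStronglyMeasurable (f δ₀) (μ.restrict F) :=
  ((isFundamentalDomain_subgroup29 (μ := μ) (MulAction.stabilizer Γ δ₀)
    hD).aestronglyMeasurable_on_iff hF (stabilizer_invariant29 f hf δ₀)).1
    (aestronglyMeasurable_iUnion29 f hf δ₀ hmeas)

/-- **Orbit unfolding of the `L¹`-norm**:
`∑' δ : orbit Γ δ₀, ∫⁻ x in D, ‖Φ δ x‖ₑ = ∫⁻ x in F, ‖Φ δ₀ x‖ₑ`. -/
theorem lintegral_enorm_orbit_unfold29 {D : Set α} (hD : IsFundamentalDomain Γ D μ)
    (Φ : Δ → α → E) (hΦ : ∀ (γ : Γ) (δ : Δ) (x : α), Φ (γ • δ) (γ • x) = Φ δ x)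
    (δ₀ : Δ) {F : Set α} (hF : IsFundamentalDomain (MulAction.stabilizer Γ δ₀) F μ) :
    ∑' δ : MulAction.orbit Γ δ₀, ∫⁻ x in D, ‖Φ δ x‖ₑ ∂μ = ∫⁻ x in F, ‖Φ δ₀ x‖ₑ ∂μ :=
  lintegral_orbit_unfold29 hD (fun δ x => ‖Φ δ x‖ₑ) (fun γ δ x => by rw [hΦ]) δ₀ hF

/-- Integrability on `F` from absolute convergence on `D`. -/
theorem integrableOn_stabilizer29 {D : Set α} (hD : IsFundamentalDomain Γ D μ)
    (Φ : Δ → α → E) (hΦ : ∀ (γ : Γ) (δ : Δ) (x : α), Φ (γ • δ) (γ • x) = Φ δ x)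
    (δ₀ : Δ) {F : Set α} (hF : IsFundamentalDomain (MulAction.stabilizer Γ δ₀) F μ)
    (hmeas : ∀ δ : MulAction.orbit Γ δ₀, AEStronglyMeasurable (Φ δ) (μ.restrict D))
    (hsum : ∑' δ : MulAction.orbit Γ δ₀, ∫⁻ x in D, ‖Φ δ x‖ₑ ∂μ ≠ ∞) :
    IntegrableOn (Φ δ₀) F μ := by
  refine ⟨aestronglyMeasurable_stabilizer29 hD Φ hΦ δ₀ hF hmeas, ?_⟩
  rw [hasFiniteIntegral_iff_enorm, ← lintegral_enorm_orbit_unfold29 hD Φ hΦ δ₀ hF]
  exact lt_top_iff_ne_top.2 hsum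

/-- Integrability on `D` of every member of the orbit, from integrability on `F`. -/
theorem integrableOn_orbit29 {D : Set α} (hD : IsFundamentalDomain Γ D μ)
    (Φ : Δ → α → E) (hΦ : ∀ (γ : Γ) (δ : Δ) (x : α), Φ (γ • δ) (γ • x) = Φ δ x)
    (δ₀ : Δ) {F : Set α} (hF : IsFundamentalDomain (MulAction.stabilizer Γ δ₀) F μ)
    (hint : IntegrableOn (Φ δ₀) F μ) (δ : MulAction.orbit Γ δ₀) :
    IntegrableOn (Φ δ) D μ := by
  have hD' := isFundamentalDomain_subgroup29 (μ := μ) (MulAction.stabilizer Γ δ₀) hD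
  have hint' : IntegrableOn (Φ δ₀)
      (⋃ q : Γ ⧸ MulAction.stabilizer Γ δ₀, (q.out : Γ)⁻¹ • D) μ :=
    (hD'.integrableOn_iff hF (stabilizer_invariant29 Φ hΦ δ₀)).2 hint
  -- write `δ = q.out • δ₀`
  obtain ⟨q, hq⟩ : ∃ q : Γ ⧸ MulAction.stabilizer Γ δ₀, (δ : Δ) = (q.out : Γ) • δ₀ := by
    refine ⟨MulAction.orbitEquivQuotientStabilizer Γ δ₀ δ, ?_⟩
    have h1 : ((MulAction.orbitEquivQuotientStabilizer Γ δ₀).symm
        (MulAction.orbitEquivQuotientStabilizer Γ δ₀ δ) : Δ) = δ := by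
      rw [Equiv.symm_apply_apply]
    rw [← h1]
    conv_lhs => rw [← QuotientGroup.out_eq' (MulAction.orbitEquivQuotientStabilizer Γ δ₀ δ)]
    rw [MulAction.orbitEquivQuotientStabilizer_symm_apply Γ δ₀ _]
  have hsub : IntegrableOn (Φ δ₀) ((q.out : Γ)⁻¹ • D) μ :=
    hint'.mono_set (subset_iUnion (fun q : Γ ⧸ MulAction.stabilizer Γ δ₀ => (q.out : Γ)⁻¹ • D) q)
  have he : MeasurableEmbedding ((q.out : Γ)⁻¹ • · : α → α) := measurableEmbedding_const_smul _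
  have h2 : IntegrableOn (Φ δ₀ ∘ fun x => (q.out : Γ)⁻¹ • x) D μ := by
    rw [← image_smul] at hsub
    exact ((measurePreserving_smul (q.out : Γ)⁻¹ μ).integrableOn_image he).1 hsub
  have h3 : (Φ δ₀ ∘ fun x => (q.out : Γ)⁻¹ • x) = Φ δ := by
    funext x
    rw [hq]
    exact (smul_left_eq29 Φ hΦ (q.out : Γ) δ₀ x).symm
  rwa [h3] at h2

variable [NormedSpace ℝ E]

/-- **Orbit unfolding, Bochner form.** -/
theorem hasSum_integral_orbit_unfold29 {D : Set α} (hD : IsFundamentalDomain Γ D μ)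
    (Φ : Δ → α → E) (hΦ : ∀ (γ : Γ) (δ : Δ) (x : α), Φ (γ • δ) (γ • x) = Φ δ x)
    (δ₀ : Δ) {F : Set α} (hF : IsFundamentalDomain (MulAction.stabilizer Γ δ₀) F μ)
    (hint : IntegrableOn (Φ δ₀) F μ) :
    HasSum (fun δ : MulAction.orbit Γ δ₀ => ∫ x in D, Φ δ x ∂μ) (∫ x in F, Φ δ₀ x ∂μ) := by
  set S := MulAction.stabilizer Γ δ₀ with hS
  have : Countable (Γ ⧸ S) := countable_quotient29 S
  have hD' := isFundamentalDomain_subgroup29 (μ := μ) S hD
  have hint' : IntegrableOn (Φ δ₀) (⋃ q : Γ ⧸ S, (q.out : Γ)⁻¹ • D) μ :=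
    (hD'.integrableOn_iff hF (stabilizer_invariant29 Φ hΦ δ₀)).2 hint
  have h1 : HasSum (fun q : Γ ⧸ S => ∫ x in (q.out : Γ)⁻¹ • D, Φ δ₀ x ∂μ)
      (∫ x in F, Φ δ₀ x ∂μ) := by
    rw [← hD'.setIntegral_eq hF (stabilizer_invariant29 Φ hΦ δ₀)]
    exact hasSum_integral_iUnion_ae (fun q => hD.nullMeasurableSet_smul _)
      (pairwise_aedisjoint_out_inv29 S hD) hint'
  have h2 : (fun q : Γ ⧸ S => ∫ x in (q.out : Γ)⁻¹ • D, Φ δ₀ x ∂μ)
      = (fun δ : MulAction.orbit Γ δ₀ => ∫ x in D, Φ δ x ∂μ) ∘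
          (MulAction.orbitEquivQuotientStabilizer Γ δ₀).symm := by
    funext q
    have hq : (((MulAction.orbitEquivQuotientStabilizer Γ δ₀).symm q :
        MulAction.orbit Γ δ₀) : Δ) = (q.out : Γ) • δ₀ := by
      conv_lhs => rw [← QuotientGroup.out_eq' q]
      exact MulAction.orbitEquivQuotientStabilizer_symm_apply Γ δ₀ _
    simp only [Function.comp_apply, hq, smul_left_eq29 Φ hΦ]
    exact (measurePreserving_smul (q.out : Γ)⁻¹ μ).setIntegral_image_emb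
      (measurableEmbedding_const_smul _) _ _
  rw [h2] at h1
  exact ((MulAction.orbitEquivQuotientStabilizer Γ δ₀).symm.hasSum_iff).1 h1

/-- **Orbit unfolding, Bochner form, `tsum` version.** -/
theorem tsum_integral_orbit_unfold29 {D : Set α} (hD : IsFundamentalDomain Γ D μ)
    (Φ : Δ → α → E) (hΦ : ∀ (γ : Γ) (δ : Δ) (x : α), Φ (γ • δ) (γ • x) = Φ δ x)
    (δ₀ : Δ) {F : Set α} (hF : IsFundamentalDomain (MulAction.stabilizer Γ δ₀) F μ)
    (hint : IntegrableOn (Φ δ₀) F μ) :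
    ∑' δ : MulAction.orbit Γ δ₀, ∫ x in D, Φ δ x ∂μ = ∫ x in F, Φ δ₀ x ∂μ :=
  (hasSum_integral_orbit_unfold29 hD Φ hΦ δ₀ hF hint).tsum_eq

/-! ## The whole sum: decomposition along the orbits of `Γ` in `Δ` -/

/-- `Δ` is the disjoint union of the orbits of the representatives `rep ω`. -/
def sigmaOrbitEquiv29 (rep : MulAction.orbitRel.Quotient Γ Δ → Δ)
    (hrep : Function.LeftInverse (Quotient.mk'' : Δ → MulAction.orbitRel.Quotient Γ Δ) rep) :
    Δ ≃ Σ ω : MulAction.orbitRel.Quotient Γ Δ, MulAction.orbit Γ (rep ω) :=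
  (MulAction.selfEquivSigmaOrbits' Γ Δ).trans
    (Equiv.sigmaCongrRight fun ω =>
      Equiv.setCongr (MulAction.orbitRel.Quotient.orbit_eq_orbit_out ω hrep))

theorem sigmaOrbitEquiv29_symm_apply (rep : MulAction.orbitRel.Quotient Γ Δ → Δ)
    (hrep : Function.LeftInverse (Quotient.mk'' : Δ → MulAction.orbitRel.Quotient Γ Δ) rep)
    (p : Σ ω : MulAction.orbitRel.Quotient Γ Δ, MulAction.orbit Γ (rep ω)) :
    (sigmaOrbitEquiv29 rep hrep).symm p = (p.2 : Δ) :=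
  rfl

/-- **Unfolding of the whole sum, `lintegral` form** (no hypothesis on `f`). -/
theorem lintegral_tsum_unfold29 {D : Set α} (hD : IsFundamentalDomain Γ D μ)
    (f : Δ → α → ℝ≥0∞) (hf : ∀ (γ : Γ) (δ : Δ) (x : α), f (γ • δ) (γ • x) = f δ x)
    (rep : MulAction.orbitRel.Quotient Γ Δ → Δ)
    (hrep : Function.LeftInverse (Quotient.mk'' : Δ → MulAction.orbitRel.Quotient Γ Δ) rep)
    (F : MulAction.orbitRel.Quotient Γ Δ → Set α)
    (hF : ∀ ω, IsFundamentalDomain (MulAction.stabilizer Γ (rep ω)) (F ω) μ) :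
    ∑' δ, ∫⁻ x in D, f δ x ∂μ = ∑' ω, ∫⁻ x in F ω, f (rep ω) x ∂μ := by
  calc ∑' δ, ∫⁻ x in D, f δ x ∂μ
      = ∑' p : Σ ω : MulAction.orbitRel.Quotient Γ Δ, MulAction.orbit Γ (rep ω),
          ∫⁻ x in D, f (p.2 : Δ) x ∂μ :=
        ((sigmaOrbitEquiv29 rep hrep).symm.tsum_eq (fun δ => ∫⁻ x in D, f δ x ∂μ)).symm
    _ = ∑' ω, ∑' δ : MulAction.orbit Γ (rep ω), ∫⁻ x in D, f (δ : Δ) x ∂μ :=
        ENNReal.tsum_sigma' _
    _ = ∑' ω, ∫⁻ x in F ω, f (rep ω) x ∂μ :=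
        tsum_congr fun ω => lintegral_orbit_unfold29 hD f hf (rep ω) (hF ω)

/-- **Unfolding of the whole sum, Bochner form**: the integral over `D` of the full sum
`∑' δ, Φ δ x` is the sum over the orbits `ω` of `Γ` in `Δ` of the integrals of `Φ (rep ω)` over
fundamental domains of the stabilisers. -/
theorem integral_tsum_unfold29 [Countable Δ] [CompleteSpace E]
    {D : Set α} (hD : IsFundamentalDomain Γ D μ)
    (Φ : Δ → α → E) (hΦ : ∀ (γ : Γ) (δ : Δ) (x : α), Φ (γ • δ) (γ • x) = Φ δ x)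
    (rep : MulAction.orbitRel.Quotient Γ Δ → Δ)
    (hrep : Function.LeftInverse (Quotient.mk'' : Δ → MulAction.orbitRel.Quotient Γ Δ) rep)
    (F : MulAction.orbitRel.Quotient Γ Δ → Set α)
    (hF : ∀ ω, IsFundamentalDomain (MulAction.stabilizer Γ (rep ω)) (F ω) μ)
    (hmeas : ∀ δ, AEStronglyMeasurable (Φ δ) (μ.restrict D))
    (hsum : ∑' δ, ∫⁻ x in D, ‖Φ δ x‖ₑ ∂μ ≠ ∞) :
    (∀ ω, IntegrableOn (Φ (rep ω)) (F ω) μ) ∧
      Summable (fun ω => ∫ x in F ω, Φ (rep ω) x ∂μ) ∧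
      ∫ x in D, ∑' δ, Φ δ x ∂μ = ∑' ω, ∫ x in F ω, Φ (rep ω) x ∂μ := by
  -- absolute summability of `δ ↦ ∫_D Φ δ`
  have hnorm : ∀ δ, ‖∫ x in D, Φ δ x ∂μ‖ₑ ≤ ∫⁻ x in D, ‖Φ δ x‖ₑ ∂μ := fun δ =>
    enorm_integral_le_lintegral_enorm _
  have hsumN : Summable fun δ => ‖∫ x in D, Φ δ x ∂μ‖ := by
    have h1 : ∑' δ, ‖∫ x in D, Φ δ x ∂μ‖ₑ ≠ ∞ :=
      ne_top_of_le_ne_top hsum (ENNReal.tsum_le_tsum hnorm)
    have h2 : ∀ δ, ‖∫ x in D, Φ δ x ∂μ‖ₑ = ENNReal.ofReal ‖∫ x in D, Φ δ x ∂μ‖ := fun δ =>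
      (ofReal_norm _).symm
    simp only [h2] at h1
    have := ENNReal.summable_toReal h1
    simpa [ENNReal.toReal_ofReal (norm_nonneg _)] using this
  have hsumE : Summable fun δ => ∫ x in D, Φ δ x ∂μ := hsumN.of_norm
  -- each orbit
  have horb : ∀ ω, ∑' δ : MulAction.orbit Γ (rep ω), ∫⁻ x in D, ‖Φ (δ : Δ) x‖ₑ ∂μ ≠ ∞ := by
    intro ω
    refine ne_top_of_le_ne_top hsum ?_
    exact ENNReal.tsum_comp_le_tsum_of_injective Subtype.val_injective
      (fun δ => ∫⁻ x in D, ‖Φ δ x‖ₑ ∂μ)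
  have hint : ∀ ω, IntegrableOn (Φ (rep ω)) (F ω) μ := fun ω =>
    integrableOn_stabilizer29 hD Φ hΦ (rep ω) (hF ω) (fun δ => hmeas δ) (horb ω)
  have hHS : ∀ ω, HasSum (fun δ : MulAction.orbit Γ (rep ω) => ∫ x in D, Φ (δ : Δ) x ∂μ)
      (∫ x in F ω, Φ (rep ω) x ∂μ) := fun ω =>
    hasSum_integral_orbit_unfold29 hD Φ hΦ (rep ω) (hF ω) (hint ω)
  -- regroup
  have hsumS : Summable fun p : Σ ω : MulAction.orbitRel.Quotient Γ Δ, MulAction.orbit Γ (rep ω)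
      => ∫ x in D, Φ (p.2 : Δ) x ∂μ :=
    ((sigmaOrbitEquiv29 rep hrep).symm.summable_iff (f := fun δ => ∫ x in D, Φ δ x ∂μ)).2 hsumE
  have hHSS : HasSum (fun p : Σ ω : MulAction.orbitRel.Quotient Γ Δ, MulAction.orbit Γ (rep ω)
      => ∫ x in D, Φ (p.2 : Δ) x ∂μ) (∑' δ, ∫ x in D, Φ δ x ∂μ) :=
    ((sigmaOrbitEquiv29 rep hrep).symm.hasSum_iff (f := fun δ => ∫ x in D, Φ δ x ∂μ)).2
      hsumE.hasSum
  have hreg : HasSum (fun ω => ∫ x in F ω, Φ (rep ω) x ∂μ) (∑' δ, ∫ x in D, Φ δ x ∂μ) :=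
    hHSS.sigma hHS
  refine ⟨hint, hreg.summable, ?_⟩
  rw [integral_tsum hmeas hsum]
  exact hreg.tsum_eq.symm

end Fermat.Agent.LT.H29

end
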